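import Mathlib

/-!
S28 / M3 (helper40): Laurent series of the shape `q^m · (1 + O(q))` over a field
("monic of order `m`"), and transcendence of such a series when it has a pole.
-/

set_option autoImplicit false

noncomputable section

namespace Fermat.Agent.S28.H40

open HahnSeries

variable {K : Type*} [Field K]

/-- `f = q^m · (1 + O(q))`. -/
def IsMO (f : LaurentSeries K) (m : ℤ) : Prop :=
  f.order = m ∧ f.leadingCoeff = 1

namespace IsMO

theorem ne_zero {f : LaurentSeries K} {m : ℤ} (h : IsMO f m) : f ≠ 0 :=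
  HahnSeries.leadingCoeff_ne_zero.mp (by rw [h.2]; exact one_ne_zero)

theorem coeff_self {f : LaurentSeries K} {m : ℤ} (h : IsMO f m) : f.coeff m = 1 := by
  have h2 := h.2
  rwa [HahnSeries.leadingCoeff_eq, h.1] at h2

theorem coeff_of_lt {f : LaurentSeries K} {m k : ℤ} (h : IsMO f m) (hk : k < m) :
    f.coeff k = 0 :=
  HahnSeries.coeff_eq_zero_of_lt_order (h.1 ▸ hk)

theorem of_coeff {f : LaurentSeries K} {m : ℤ} (h1 : f.coeff m = 1)
    (h0 : ∀ k : ℤ, k < m → f.coeff k = 0) : IsMO f m := by
  have hne0 : f.coeff m ≠ 0 := by rw [h1]; exact one_ne_zero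
  have hne : f ≠ 0 := HahnSeries.ne_zero_of_coeff_ne_zero hne0
  have horder : f.order = m := by
    refine le_antisymm (HahnSeries.order_le_of_coeff_ne_zero hne0) ?_
    by_contra hlt
    rw [not_le] at hlt
    exact hne (HahnSeries.coeff_order_eq_zero.mp (h0 _ hlt))
  exact ⟨horder, by rw [HahnSeries.leadingCoeff_eq, horder, h1]⟩

theorem single (m : ℤ) : IsMO (HahnSeries.single m (1 : K)) m := by
  refine ⟨HahnSeries.order_single one_ne_zero, ?_⟩
  rw [HahnSeries.leadingCoeff_eq, HahnSeries.order_single one_ne_zero,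
    HahnSeries.coeff_single_same]

theorem mul {f g : LaurentSeries K} {m n : ℤ} (hf : IsMO f m) (hg : IsMO g n) :
    IsMO (f * g) (m + n) := by
  have h1 : f.leadingCoeff * g.leadingCoeff ≠ 0 := by
    rw [hf.2, hg.2, one_mul]; exact one_ne_zero
  refine ⟨?_, ?_⟩
  · rw [HahnSeries.order_mul_of_ne_zero h1, hf.1, hg.1]
  · rw [HahnSeries.leadingCoeff_mul_of_ne_zero h1, hf.2, hg.2, one_mul]

theorem one : IsMO (1 : LaurentSeries K) 0 := single 0

theorem pow {f : LaurentSeries K} {m : ℤ} (hf : IsMO f m) (n : ℕ) :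
    IsMO (f ^ n) ((n : ℤ) * m) := by
  induction n with
  | zero => simpa using (one : IsMO (1 : LaurentSeries K) 0)
  | succ n ih =>
    have h := ih.mul hf
    rw [← pow_succ] at h
    convert h using 1
    push_cast
    ring

theorem ofPowerSeries {U : PowerSeries K} (hU : PowerSeries.constantCoeff U = 1) :
    IsMO (HahnSeries.ofPowerSeries ℤ K U) 0 := by
  refine of_coeff ?_ ?_
  · rw [show (0 : ℤ) = ((0 : ℕ) : ℤ) from rfl, HahnSeries.ofPowerSeries_apply_coeff,
      PowerSeries.coeff_zero_eq_constantCoeff, hU]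
  · intro k hk
    by_contra hne
    have hmem : k ∈ (HahnSeries.ofPowerSeries ℤ K U).support := hne
    rw [HahnSeries.ofPowerSeries_apply] at hmem
    obtain ⟨n, -, hn⟩ := (HahnSeries.support_embDomain_subset hmem)
    have : (0 : ℤ) ≤ k := by rw [← hn]; simp
    omega

theorem single_mul_ofPowerSeries (m : ℤ) {U : PowerSeries K}
    (hU : PowerSeries.constantCoeff U = 1) :
    IsMO (HahnSeries.single m (1 : K) * HahnSeries.ofPowerSeries ℤ K U) m := by
  simpa using (single (K := K) m).mul (ofPowerSeries hU)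

/-- Uniqueness of the order. -/
theorem order_unique {f : LaurentSeries K} {m n : ℤ} (h : IsMO f m) (h' : IsMO f n) : m = n :=
  h.1.symm.trans h'.1

end IsMO

/-- Coefficients of a scalar multiple (for the `K`-algebra structure of `LaurentSeries K`). -/
theorem coeff_algebra_smul (c : K) (f : LaurentSeries K) (n : ℤ) :
    (@HSMul.hSMul K (LaurentSeries K) (LaurentSeries K)
      (@instHSMul K (LaurentSeries K) Algebra.toSMul) c f).coeff n = c * f.coeff n := by
  rw [Algebra.smul_def, LaurentSeries.algebraMap_apply, HahnSeries.C_mul_eq_smul,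
    HahnSeries.coeff_smul, smul_eq_mul]

namespace IsMO

/-- Coefficient of `q^(m·deg P)` in `P(f)` for `f` with a pole of order `-m`. -/
theorem coeff_aeval {f : LaurentSeries K} {m : ℤ} (h : IsMO f m) (hm : m < 0)
    (P : Polynomial K) :
    (Polynomial.aeval f P).coeff ((P.natDegree : ℤ) * m) = P.leadingCoeff := by
  rw [Polynomial.aeval_eq_sum_range, HahnSeries.coeff_sum, Finset.sum_range_succ,
    Finset.sum_eq_zero, zero_add, coeff_algebra_smul, (h.pow _).coeff_self,
    mul_one, Polynomial.coeff_natDegree]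
  intro i hi
  rw [coeff_algebra_smul, (h.pow i).coeff_of_lt, mul_zero]
  have hi' : (i : ℤ) < (P.natDegree : ℤ) := by exact_mod_cast Finset.mem_range.mp hi
  exact mul_lt_mul_of_neg_right hi' hm

theorem transcendental {f : LaurentSeries K} {m : ℤ} (h : IsMO f m) (hm : m < 0) :
    Transcendental K f := by
  rw [transcendental_iff]
  intro P hP
  by_contra hne
  have h1 := h.coeff_aeval hm P
  rw [hP, HahnSeries.coeff_zero] at h1
  exact hne (Polynomial.leadingCoeff_eq_zero.mp h1.symm)

theorem aeval_injective {f : LaurentSeries K} {m : ℤ} (h : IsMO f m) (hm : m < 0) :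
    Function.Injective (Polynomial.aeval (R := K) f) :=
  transcendental_iff_injective.mp (h.transcendental hm)

end IsMO

end Fermat.Agent.S28.H40
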