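import Mathlib
import Fermat.Agent.S28.H40.MonicOrder

/-!
S28 / M3 (helper40): the level-two elimination.

From `j · h² = (h + c₁)³` and `j' · h = (h + c₂)³` one gets `D(j, j') · h = N(j, j')` with explicit
polynomial expressions `D`, `N`; for Laurent series `j = q⁻¹ + …`, `j' = q⁻² + …` the coefficient
of `q⁻²` in `N` is `-c₁³`, so `h ∈ K(j, j')` as soon as `c₁ ≠ 0`.
(Level two of the modular curve: `c₁ = 256`, `c₂ = 16`.)
-/

set_option autoImplicit false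

noncomputable section

namespace Fermat.Agent.S28.H40

open HahnSeries

section Generic

variable {L : Type*} [CommRing L]

/-- The denominator of the level-two elimination. -/
def elimD2 (c₁ c₂ j j' : L) : L :=
  (j' + 3 * (c₁ ^ 2 - c₂ ^ 2) + 3 * c₂ * (j - 3 * (c₁ - c₂))) * (j' + 3 * (c₁ ^ 2 - c₂ ^ 2))
    + (j - 3 * (c₁ - c₂)) * (c₁ ^ 3 - c₂ ^ 3)
    + (3 * c₂ ^ 2 - j') * (j - 3 * (c₁ - c₂)) ^ 2

/-- The numerator of the level-two elimination. -/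
def elimN2 (c₁ c₂ j j' : L) : L :=
  -((j' + 3 * (c₁ ^ 2 - c₂ ^ 2) + 3 * c₂ * (j - 3 * (c₁ - c₂))) * (c₁ ^ 3 - c₂ ^ 3)
    + c₂ ^ 3 * (j - 3 * (c₁ - c₂)) ^ 2)

theorem elimD2_mul_eq (c₁ c₂ j j' h : L) (rel1 : j * h ^ 2 = (h + c₁) ^ 3)
    (rel2 : j' * h = (h + c₂) ^ 3) : elimD2 c₁ c₂ j j' * h = elimN2 c₁ c₂ j j' := by
  unfold elimD2 elimN2
  linear_combination
    (-((j - 3 * (c₁ - c₂)) * h + (j' + 3 * (c₁ ^ 2 - c₂ ^ 2)) + 3 * c₂ * (j - 3 * (c₁ - c₂)))) * rel1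
    + ((j - 3 * (c₁ - c₂)) * h + (j' + 3 * (c₁ ^ 2 - c₂ ^ 2)) + 3 * c₂ * (j - 3 * (c₁ - c₂))
        - (j - 3 * (c₁ - c₂)) ^ 2) * rel2

theorem map_elimD2 {L' : Type*} [CommRing L'] (f : L →+* L') (c₁ c₂ j j' : L) :
    f (elimD2 c₁ c₂ j j') = elimD2 (f c₁) (f c₂) (f j) (f j') := by
  simp only [elimD2, map_add, map_mul, map_sub, map_pow, map_ofNat]

theorem map_elimN2 {L' : Type*} [CommRing L'] (f : L →+* L') (c₁ c₂ j j' : L) :
    f (elimN2 c₁ c₂ j j') = elimN2 (f c₁) (f c₂) (f j) (f j') := by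
  simp only [elimN2, map_neg, map_add, map_mul, map_sub, map_pow, map_ofNat]

theorem elimN2_eq (c₁ c₂ j j' : L) :
    elimN2 c₁ c₂ j j' = -(c₂ ^ 3 * j ^ 2) - (c₁ ^ 3 - c₂ ^ 3) * j'
      - (3 * c₂ * (c₁ ^ 3 - c₂ ^ 3) - 6 * c₂ ^ 3 * (c₁ - c₂)) * j
      - (3 * (c₁ ^ 2 - c₂ ^ 2) * (c₁ ^ 3 - c₂ ^ 3) - 9 * c₂ * (c₁ - c₂) * (c₁ ^ 3 - c₂ ^ 3)
          + 9 * c₂ ^ 3 * (c₁ - c₂) ^ 2) := by
  unfold elimN2
  ring

end Generic

section Laurent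

variable {K : Type*} [Field K]

theorem coeff_C_mul' (c : K) (f : LaurentSeries K) (n : ℤ) :
    (HahnSeries.C c * f).coeff n = c * f.coeff n := by
  rw [HahnSeries.C_mul_eq_smul, HahnSeries.coeff_smul, smul_eq_mul]

/-- The coefficient of `q⁻²` in the numerator `N(j, j')` is `-c₁³`. -/
theorem coeff_elimN2 (c₁ c₂ : K) {j j' : LaurentSeries K} (hj : IsMO j (-1))
    (hj' : IsMO j' (-2)) :
    (elimN2 (HahnSeries.C c₁) (HahnSeries.C c₂) j j').coeff (-2) = -c₁ ^ 3 := by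
  have h1 : j.coeff (-2) = 0 := hj.coeff_of_lt (by norm_num)
  have h2 : (j ^ 2).coeff (-2) = 1 := by
    have := (hj.pow 2).coeff_self
    simpa using this
  have h3 : j'.coeff (-2) = 1 := hj'.coeff_self
  have e : elimN2 (HahnSeries.C c₁) (HahnSeries.C c₂) j j'
      = -(HahnSeries.C (c₂ ^ 3) * j ^ 2) - HahnSeries.C (c₁ ^ 3 - c₂ ^ 3) * j'
        - HahnSeries.C (3 * c₂ * (c₁ ^ 3 - c₂ ^ 3) - 6 * c₂ ^ 3 * (c₁ - c₂)) * j
        - HahnSeries.C (3 * (c₁ ^ 2 - c₂ ^ 2) * (c₁ ^ 3 - c₂ ^ 3)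
            - 9 * c₂ * (c₁ - c₂) * (c₁ ^ 3 - c₂ ^ 3) + 9 * c₂ ^ 3 * (c₁ - c₂) ^ 2) * 1 := by
    rw [elimN2_eq]
    simp only [map_add, map_mul, map_sub, map_pow, map_ofNat, mul_one]
  rw [e, HahnSeries.coeff_sub, HahnSeries.coeff_sub, HahnSeries.coeff_sub, HahnSeries.coeff_neg,
    coeff_C_mul', coeff_C_mul', coeff_C_mul', coeff_C_mul', h1, h2, h3,
    HahnSeries.coeff_one, if_neg (by norm_num)]
  ring

/-- **Level-two elimination**: `h ∈ K(j, j')`. -/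
theorem mem_adjoin_level_two (c₁ c₂ : K) (hc₁ : c₁ ≠ 0) {j j' h : LaurentSeries K}
    (hj : IsMO j (-1)) (hj' : IsMO j' (-2))
    (rel1 : j * h ^ 2 = (h + HahnSeries.C c₁) ^ 3)
    (rel2 : j' * h = (h + HahnSeries.C c₂) ^ 3) :
    h ∈ IntermediateField.adjoin K {j, j'} := by
  have hmul := elimD2_mul_eq (HahnSeries.C c₁) (HahnSeries.C c₂) j j' h rel1 rel2
  have hN : elimN2 (HahnSeries.C c₁) (HahnSeries.C c₂) j j' ≠ 0 := by
    intro h0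
    have h1 := coeff_elimN2 c₁ c₂ hj hj'
    rw [h0, HahnSeries.coeff_zero] at h1
    exact hc₁ (pow_eq_zero_iff (n := 3) (by norm_num) |>.mp (neg_eq_zero.mp h1.symm))
  have hD : elimD2 (HahnSeries.C c₁) (HahnSeries.C c₂) j j' ≠ 0 := by
    intro h0
    rw [h0, zero_mul] at hmul
    exact hN hmul.symm
  have hh : h = elimN2 (HahnSeries.C c₁) (HahnSeries.C c₂) j j'
      / elimD2 (HahnSeries.C c₁) (HahnSeries.C c₂) j j' := by
    rw [eq_div_iff hD, mul_comm]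
    exact hmul
  set F := IntermediateField.adjoin K {j, j'} with hF
  have hjF : j ∈ F := IntermediateField.subset_adjoin K _ (Set.mem_insert _ _)
  have hj'F : j' ∈ F := IntermediateField.subset_adjoin K _ (Set.mem_insert_of_mem _ rfl)
  have hC : ∀ c : K, HahnSeries.C c ∈ F := by
    intro c
    rw [← LaurentSeries.algebraMap_apply]
    exact F.algebraMap_mem c
  have hNF : elimN2 (HahnSeries.C c₁) (HahnSeries.C c₂) j j' ∈ F := by
    have := map_elimN2 (algebraMap F (LaurentSeries K)) ⟨_, hC c₁⟩ ⟨_, hC c₂⟩ ⟨j, hjF⟩ ⟨j', hj'F⟩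
    exact this ▸ SetLike.coe_mem _
  have hDF : elimD2 (HahnSeries.C c₁) (HahnSeries.C c₂) j j' ∈ F := by
    have := map_elimD2 (algebraMap F (LaurentSeries K)) ⟨_, hC c₁⟩ ⟨_, hC c₂⟩ ⟨j, hjF⟩ ⟨j', hj'F⟩
    exact this ▸ SetLike.coe_mem _
  rw [hh]
  exact div_mem hNF hDF

end Laurent

end Fermat.Agent.S28.H40
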