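import Mathlib

/-!
S28 / M3 (helper40): "rational + integral ⇒ polynomial".

If `j` is transcendental over the field `K`, `x ∈ K(j)` and `x` is a root of a monic polynomial
with coefficients in `K[j]`, then `x ∈ K[j]`.
-/

set_option autoImplicit false

noncomputable section

namespace Fermat.Agent.S28.H40

open Polynomial
open scoped nonZeroDivisors

variable {K : Type*} [Field K] {L : Type*} [Field L] [Algebra K L]

/-- A transcendental element `j`, an element `x ∈ K(j)` which is a root of a monic polynomial
`Ψ(T, j)` with `Ψ ∈ K[Y][T]`: then `x = R(j)` for a polynomial `R`. -/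
theorem exists_aeval_eq_of_monic_root {j x : L} (hj : Transcendental K j)
    (hx : x ∈ IntermediateField.adjoin K {j})
    (Ψ : Polynomial (Polynomial K)) (hΨ : Ψ.Monic)
    (hroot : Polynomial.eval₂ (Polynomial.aeval (R := K) j).toRingHom x Ψ = 0) :
    ∃ R : Polynomial K, x = Polynomial.aeval j R := by
  classical
  have hinj : Function.Injective (Polynomial.aeval (R := K) j).toRingHom :=
    transcendental_iff_injective.mp hj
  have hφ : (Polynomial K)⁰ ≤ (L⁰).comap (Polynomial.aeval (R := K) j).toRingHom := by
    intro P hP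
    rw [Submonoid.mem_comap]
    refine mem_nonZeroDivisors_of_ne_zero ?_
    intro h0
    have hP0 : P ≠ 0 := nonZeroDivisors.ne_zero hP
    exact hP0 (hinj (by rw [h0, map_zero]))
  set φ : RatFunc K →+* L := RatFunc.liftRingHom (Polynomial.aeval (R := K) j).toRingHom hφ
    with hφdef
  have hφinj : Function.Injective φ := RatFunc.liftRingHom_injective _ hinj hφ
  have hφalg : ∀ P : Polynomial K, φ (algebraMap _ _ P) = Polynomial.aeval j P := by
    intro P
    have h := RatFunc.liftRingHom_apply_div (Polynomial.aeval (R := K) j).toRingHom hφ P 1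
    rw [map_one, map_one, div_one, div_one] at h
    exact h
  obtain ⟨r, s, hrs⟩ := (IntermediateField.mem_adjoin_simple_iff K x).mp hx
  set ρ : RatFunc K := algebraMap _ _ r / algebraMap _ _ s with hρ
  have hxρ : x = φ ρ := by
    rw [hρ, map_div₀, hφalg, hφalg, hrs]
  have hcomp : (Polynomial.aeval (R := K) j).toRingHom
      = φ.comp (algebraMap (Polynomial K) (RatFunc K)) := by
    refine RingHom.ext fun P => ?_
    rw [RingHom.comp_apply, hφalg]
    rfl
  have hint : IsIntegral (Polynomial K) ρ := by
    refine ⟨Ψ, hΨ, ?_⟩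
    apply hφinj
    rw [Polynomial.hom_eval₂, map_zero, ← hcomp, ← hxρ]
    exact hroot
  obtain ⟨R, hR⟩ := IsIntegrallyClosed.isIntegral_iff.mp hint
  exact ⟨R, by rw [hxρ, ← hR, hφalg]⟩

end Fermat.Agent.S28.H40
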