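import Mathlib
import Fermat.Agent.S28.Defs
import Fermat.Agent.S28.Formal
import Fermat.Agent.S28.H55.Crux
import Fermat.Agent.S28.H55.Bridge
import Fermat.Agent.S28.H24.ElimThree
import Fermat.Agent.S28.H40.MonicOrder
import Fermat.Agent.S28.H40.ElimTwo
import Fermat.Agent.S28.H40.RatInt

/-!
S28 / M3 (helper40): the crux (B), final glue.

For primes `p ≠ ℓ` and a field `K` of characteristic `ℓ`: `j(q^p) ∉ K(j(q))`.

Inputs: the modular equation (`HasModPolys`, package M1; only `Φ(j(q^p), j(q)) = 0` with `Φ` monic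
is used), the abstract crux of helper55 (`natCast_eq_zero_of_hauptmodul`), the level-two and
level-three Hauptmodul relations in `K((q))` (bridge of helper55 from the `ℤ⟦q⟧`-identities of
package M2), the eliminations `h ∈ K(j, j(q^r))` (level two: `ElimTwo`; level three: helper24).
-/

set_option autoImplicit false

open Polynomial ModularCurve
open scoped IntermediateField

noncomputable section

namespace Fermat.Agent.S28.H40

open Fermat.Agent.S28 Fermat.Agent.S28.H55

section Abstract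

variable {K : Type*} [Field K]

theorem isMO_lead (a : ℤ) {f : PowerSeries K} (hf : PowerSeries.constantCoeff f = 1) :
    IsMO (lead a f) a :=
  IsMO.single_mul_ofPowerSeries a hf

theorem constantCoeff_jNum_map :
    PowerSeries.constantCoeff (PowerSeries.map (Int.castRingHom K) jNum) = 1 := by
  rw [← PowerSeries.coeff_zero_eq_constantCoeff, PowerSeries.coeff_map,
    PowerSeries.coeff_zero_eq_constantCoeff, constantCoeff_jNum]
  simp

/-- `x * h = B(h)` and `h ≠ 0` give `x ∈ K(h)`. -/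
theorem mem_adjoin_of_mul_eq_aeval {L : Type*} [Field L] [Algebra K L] {x h : L} (hh : h ≠ 0)
    (B : K[X]) (hrel : x * h = aeval h B) : x ∈ K⟮h⟯ :=
  (IntermediateField.mem_adjoin_simple_iff K x).mpr
    ⟨B, X, by rw [aeval_X, eq_div_iff hh, hrel]⟩

theorem lead_ne_zero (a : ℤ) {f : PowerSeries K} (hf : PowerSeries.constantCoeff f = 1) :
    lead a f ≠ 0 :=
  (isMO_lead a hf).ne_zero

/-- **(B) from a Hauptmodul**: abstract form.  If `j = jqModC K` satisfies a monic modular
relation `Φ(j(q^p), j) = 0`, and there is a Hauptmodul `h = q⁻¹ g` as in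
`natCast_eq_zero_of_hauptmodul`, and `p ≠ 0` in `K`, then `j(q^p) ∉ K(j)`. -/
theorem qExpand_not_mem_adjoin_of_hauptmodul (p r s : ℕ) [NeZero p] [NeZero r] (hp : 2 ≤ p)
    (hpK : (p : K) ≠ 0) (g : PowerSeries K) (A : K[X])
    (hg0 : PowerSeries.constantCoeff g = 1) (hg1 : g ≠ 1)
    (hA0 : A.coeff 0 ≠ 0) (hs1 : 1 ≤ s) (hsA : s < A.natDegree)
    (rel1 : jqModC K * lead (-1) g ^ s = aeval (lead (-1) g) A)
    (hj₂ : qExpand K r (jqModC K) ∈ K⟮lead (-1) g⟯)
    (hgen : lead (-1) g ∈ IntermediateField.adjoin K {jqModC K, qExpand K r (jqModC K)})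
    (Φ : Polynomial (Polynomial ℤ)) (hΦ : Φ.Monic)
    (hrel : (evalY (jqModC K) Φ).eval (qExpand K p (jqModC K)) = 0) :
    qExpand K p (jqModC K) ∉ K⟮jqModC K⟯ := by
  intro hmem
  have htr : Transcendental K (jqModC K) := by
    rw [jqModC_eq_lead]
    exact transcendental_lead (by norm_num) _ constantCoeff_jNum_map
  obtain ⟨R, hR⟩ := exists_aeval_eq_of_monic_root htr hmem
    (Φ.map (Polynomial.mapRingHom (Int.castRingHom K))) (hΦ.map _) (by
      rw [Polynomial.eval₂_map]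
      have hcomp : (Polynomial.aeval (R := K) (jqModC K)).toRingHom.comp
          (Polynomial.mapRingHom (Int.castRingHom K))
            = Polynomial.eval₂RingHom (Int.castRingHom (LaurentSeries K)) (jqModC K) := by
        apply Polynomial.ringHom_ext
        · intro a
          simp
        · simp
      rw [hcomp, ← evalY_eval]
      exact hrel)
  exact hpK (natCast_eq_zero_of_hauptmodul p r s hp (jqModC K) g A R hg0 hg1 hA0 hs1 hsA rel1 hj₂
    hgen hR)

theorem isMO_jqModC : IsMO (jqModC K) (-1) := by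
  rw [jqModC_eq_lead]
  exact isMO_lead (-1) constantCoeff_jNum_map

theorem isMO_qExpand_jqModC (r : ℕ) [NeZero r] : IsMO (qExpand K r (jqModC K)) (-(r : ℤ)) := by
  rw [jqModC_eq_lead, qExpand_lead, mul_neg_one]
  exact isMO_lead (K := K) (-(r : ℤ))
    (f := PowerSeries.expand r (NeZero.ne r) (PowerSeries.map (Int.castRingHom K) jNum))
    (by rw [PowerSeries.constantCoeff_expand, constantCoeff_jNum_map])

end Abstract

section Levels

variable (K : Type*) [Field K]

/-- **(B) via level two**, valid when `2 ≠ 0` in `K`. -/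
theorem qExpand_not_mem_adjoin_of_level2 (p : ℕ) [NeZero p] (hp : 2 ≤ p) (hpK : (p : K) ≠ 0)
    (h2 : (2 : K) ≠ 0) (g : PowerSeries K)
    (hg0 : PowerSeries.constantCoeff g = 1) (hg1 : g ≠ 1)
    (rel1 : jqModC K * lead (-1) g ^ 2 = aeval (lead (-1) g) ((X + C (256 : K)) ^ 3 : K[X]))
    (rel2 : qExpand K 2 (jqModC K) * lead (-1) g
      = aeval (lead (-1) g) ((X + C (16 : K)) ^ 3 : K[X]))
    (Φ : Polynomial (Polynomial ℤ)) (hΦ : Φ.Monic)
    (hrel : (evalY (jqModC K) Φ).eval (qExpand K p (jqModC K)) = 0) :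
    qExpand K p (jqModC K) ∉ K⟮jqModC K⟯ := by
  have h256 : (256 : K) ≠ 0 := by
    rw [show (256 : K) = 2 ^ 8 by norm_num]
    exact pow_ne_zero 8 h2
  refine qExpand_not_mem_adjoin_of_hauptmodul p 2 2 hp hpK g ((X + C (256 : K)) ^ 3) hg0 hg1
    ?_ (by norm_num) ?_ rel1 ?_ ?_ Φ hΦ hrel
  · rw [coeff_zero_eq_eval_zero, eval_pow, eval_add, eval_X, eval_C, zero_add]
    exact pow_ne_zero 3 h256
  · rw [natDegree_pow, natDegree_X_add_C]
    norm_num
  · exact mem_adjoin_of_mul_eq_aeval (lead_ne_zero (-1) hg0) _ rel2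
  · have hj2 := isMO_qExpand_jqModC (K := K) 2
    refine mem_adjoin_level_two (256 : K) (16 : K) h256 isMO_jqModC hj2 ?_ ?_
    · rw [rel1]
      simp only [map_pow, map_add, aeval_X, aeval_C, LaurentSeries.algebraMap_apply]
    · rw [rel2]
      simp only [map_pow, map_add, aeval_X, aeval_C, LaurentSeries.algebraMap_apply]

/-- **(B) via level three**, valid when `3 ≠ 0` in `K`. -/
theorem qExpand_not_mem_adjoin_of_level3 (p : ℕ) [NeZero p] (hp : 2 ≤ p) (hpK : (p : K) ≠ 0)
    (h3 : (3 : K) ≠ 0) (g : PowerSeries K)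
    (hg0 : PowerSeries.constantCoeff g = 1) (hg1 : g ≠ 1)
    (rel1 : jqModC K * lead (-1) g ^ 3
      = aeval (lead (-1) g) ((X + C (27 : K)) * (X + C (243 : K)) ^ 3 : K[X]))
    (rel2 : qExpand K 3 (jqModC K) * lead (-1) g
      = aeval (lead (-1) g) ((X + C (27 : K)) * (X + C (3 : K)) ^ 3 : K[X]))
    (Φ : Polynomial (Polynomial ℤ)) (hΦ : Φ.Monic)
    (hrel : (evalY (jqModC K) Φ).eval (qExpand K p (jqModC K)) = 0) :
    qExpand K p (jqModC K) ∉ K⟮jqModC K⟯ := by
  refine qExpand_not_mem_adjoin_of_hauptmodul p 3 3 hp hpK g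
    ((X + C (27 : K)) * (X + C (243 : K)) ^ 3) hg0 hg1 ?_ (by norm_num) ?_ rel1 ?_ ?_ Φ hΦ hrel
  · rw [coeff_zero_eq_eval_zero, eval_mul, eval_pow, eval_add, eval_X, eval_C, zero_add,
      eval_add, eval_X, eval_C, zero_add]
    rw [show (27 : K) * 243 ^ 3 = 3 ^ 18 by norm_num]
    exact pow_ne_zero 18 h3
  · rw [Monic.natDegree_mul (monic_X_add_C _) ((monic_X_add_C _).pow 3), natDegree_pow,
      natDegree_X_add_C, natDegree_X_add_C]
    norm_num
  · exact mem_adjoin_of_mul_eq_aeval (lead_ne_zero (-1) hg0) _ rel2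
  · refine Fermat.Agent.S28.H24.mem_adjoin_level_three_laurent h3
      (PowerSeries.map (Int.castRingHom K) jNum)
      (PowerSeries.expand 3 (NeZero.ne 3) (PowerSeries.map (Int.castRingHom K) jNum))
      constantCoeff_jNum_map
      (by rw [PowerSeries.constantCoeff_expand, constantCoeff_jNum_map])
      (jqModC K) (qExpand K 3 (jqModC K)) (lead (-1) g) rfl ?_ ?_ ?_
    · rw [jqModC_eq_lead, qExpand_lead]
      rfl
    · rw [rel1]
      simp only [map_mul, map_pow, map_add, aeval_X, map_ofNat]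
    · rw [rel2]
      simp only [map_mul, map_pow, map_add, aeval_X, map_ofNat]

end Levels

/-- **(B)**, from the modular equations and the two Hauptmodul bridges (level two when `2 ≠ 0`
in `K`, level three when `3 ≠ 0` in `K`). -/
theorem jS_prime_not_mem_adjoin_aux (hmod : HasModPolys) (K : Type) [Field K] (ℓ : ℕ)
    [Fact ℓ.Prime] [CharP K ℓ] (p : ℕ) (hp : p.Prime) (hpℓ : p ≠ ℓ)
    (hL2 : (2 : K) ≠ 0 → ∃ g : PowerSeries K, PowerSeries.constantCoeff g = 1 ∧ g ≠ 1 ∧
      jqModC K * lead (-1) g ^ 2 = aeval (lead (-1) g) ((X + C (256 : K)) ^ 3 : K[X]) ∧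
      qExpand K 2 (jqModC K) * lead (-1) g = aeval (lead (-1) g) ((X + C (16 : K)) ^ 3 : K[X]))
    (hL3 : (3 : K) ≠ 0 → ∃ g : PowerSeries K, PowerSeries.constantCoeff g = 1 ∧ g ≠ 1 ∧
      jqModC K * lead (-1) g ^ 3
        = aeval (lead (-1) g) ((X + C (27 : K)) * (X + C (243 : K)) ^ 3 : K[X]) ∧
      qExpand K 3 (jqModC K) * lead (-1) g
        = aeval (lead (-1) g) ((X + C (27 : K)) * (X + C (3 : K)) ^ 3 : K[X])) :
    jS K 1 p ∉ IntermediateField.adjoin K {jS K 1 1} := by
  have : NeZero p := ⟨hp.ne_zero⟩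
  obtain ⟨Φ, hΦ⟩ := hmod p hp
  have hrel := (hΦ.eval_jS (R := K) hp (1 : Kˣ) 1 one_ne_zero).2
  rw [one_pow, one_mul, jS_one_one, jS_one_eq_jqNModC p] at hrel
  rw [jS_one_one, jS_one_eq_jqNModC p]
  have hpK : (p : K) ≠ 0 := by
    intro h0
    have hdvd := (CharP.cast_eq_zero_iff K ℓ p).mp h0
    exact hpℓ ((Nat.prime_dvd_prime_iff_eq (Fact.out) hp).mp hdvd).symm
  by_cases h2 : (2 : K) = 0
  · have h3 : (3 : K) ≠ 0 := by
      intro h3
      have h1 : (1 : K) = 0 := by linear_combination h3 - h2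
      exact one_ne_zero h1
    obtain ⟨g, hg0, hg1, rel1, rel2⟩ := hL3 h3
    exact qExpand_not_mem_adjoin_of_level3 K p hp.two_le hpK h3 g hg0 hg1 rel1 rel2 Φ hΦ.monic hrel
  · obtain ⟨g, hg0, hg1, rel1, rel2⟩ := hL2 h2
    exact qExpand_not_mem_adjoin_of_level2 K p hp.two_le hpK h2 g hg0 hg1 rel1 rel2 Φ hΦ.monic hrel

end Fermat.Agent.S28.H40
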