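import Mathlib
import Fermat.Agent.S28.H40.CruxB
import Fermat.Agent.S28.H48.Level

/-!
S28 / M3 (helper40): the crux (B), FINAL statement in the skeleton shape.

For primes `p ≠ ℓ` and a field `K` of characteristic `ℓ`: `j(q^p) ∉ K(j(q))`.
The only remaining hypothesis is `hmod : HasModPolys` (package M1).
-/

set_option autoImplicit false

open Polynomial ModularCurve

noncomputable section

namespace Fermat.Agent.S28

/-- **(B)**: in characteristic `ℓ`, for a prime `p ≠ ℓ`, `j(q^p) ∉ K(j(q))`. -/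
theorem jS_prime_not_mem_adjoin (hmod : HasModPolys) (K : Type) [Field K] (ℓ : ℕ) [Fact ℓ.Prime]
    [CharP K ℓ] (p : ℕ) (hp : p.Prime) (hpℓ : p ≠ ℓ) :
    jS K 1 p ∉ IntermediateField.adjoin K {jS K 1 1} :=
  H40.jS_prime_not_mem_adjoin_aux hmod K ℓ p hp hpℓ
    (fun h2 => by
      obtain ⟨g, hg0, hg1, r1, r2⟩ := H55.exists_level2 K level2_a level2_b
      exact ⟨g, hg0, hg1 h2, r1, r2⟩)
    (fun h3 => by
      obtain ⟨g, hg0, hg1, r1, r2⟩ := H55.exists_level3 K level3_a level3_b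
      exact ⟨g, hg0, hg1 h3, r1, r2⟩)

/-- (B) in the `qExpand`/`jqModC` vocabulary of the Prelude. -/
theorem qExpand_jqModC_not_mem_adjoin (hmod : HasModPolys) (K : Type) [Field K] (ℓ : ℕ)
    [Fact ℓ.Prime] [CharP K ℓ] (p : ℕ) (hp : p.Prime) (hpℓ : p ≠ ℓ) :
    @qExpand K _ p ⟨hp.ne_zero⟩ (jqModC K) ∉ IntermediateField.adjoin K {jqModC K} := by
  have h := jS_prime_not_mem_adjoin hmod K ℓ p hp hpℓ
  have : NeZero p := ⟨hp.ne_zero⟩
  rw [jS_one_one, jS_one_eq_jqNModC p] at h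
  exact h

end Fermat.Agent.S28
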